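-- Statement S23: `S₂(Γ₀(N))` has an integral structure (a basis of cusp forms with integral
-- `q`-expansions, in the prelude's sense `CuspForm.HasIntegralStructure`).
import Fermat.Statements.S23
import Fermat.Agent.S23.Descent
import Fermat.Agent.S23.FixedField
import Fermat.Agent.S23.BDForms
import Fermat.Agent.S23.ConjAlt

set_option autoImplicit false
open CuspForm

namespace Fermat.Agent.S23

theorem result (N : ℕ) [NeZero N] : CuspForm.HasIntegralStructure N 2 :=
  hasIntegralStructure_of_conj N 2 exists_rat_of_forall_ringHom_fixed
    (fun s f => ConjAlt.exists_cuspForm_map N s f)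
    (fun f hf => exists_int_smul_mem_intLattice N 2 f hf)

end Fermat.Agent.S23
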