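-- Statement S22: the Hecke algebra of cusp forms of level `Γ₀(N)` and weight `k` (generated away
-- from a set `S` of primes) is a finitely generated `ℤ`-module.
import Fermat.Statements.S22
import Fermat.Agent.S22.Trivial
import Fermat.Agent.S22.Eichler

set_option autoImplicit false
open CuspForm

namespace Fermat.Agent.S22

theorem result (N : ℕ) [NeZero N] (k : ℤ) (S : Set ℕ) :
    Module.Finite ℤ (CuspForm.heckeAlgebra N k S) := by
  rcases le_or_gt k 1 with hk | hk
  · exact Trivial.finite_heckeAlgebra_of_weight_le_one N hk S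
  · obtain ⟨w, rfl⟩ : ∃ w : ℕ, k = (w : ℤ) + 2 := ⟨(k - 2).toNat, by omega⟩
    exact Eichler.finite_heckeAlgebra_weight_add_two N w S

end Fermat.Agent.S22
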