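import Fermat.Statements.S20
import Fermat.Agent.S20.Glue
import Fermat.Agent.S20.Numerics
import Fermat.Agent.S20.CountFix
import Fermat.Agent.S20.CountCusps
import Fermat.Agent.S20.IndexGamma0
import Fermat.Agent.S23.Theta
import Fermat.Agent.S20.Freeness
import Fermat.Agent.S20.RowsIndep
import Fermat.Agent.S20.RankCore
import Fermat.Agent.S20.EllCount
import Fermat.Agent.S20.MatHol
import Fermat.Agent.S20.DualBasis
import Fermat.Agent.S20.L1Basic
import Fermat.Agent.S20.Cycles
import Fermat.Agent.S20.SumWeightsCore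
import Fermat.Agent.S20.CuspsDFT

set_option autoImplicit false
open CuspForm

namespace Fermat.Agent.S20

open UpperHalfPlane ModularForm Matrix.SpecialLinearGroup CongruenceSubgroup
open scoped MatrixGroups ModularForm

namespace Final

variable {Γ : Subgroup SL(2, ℤ)}

/-- Existence of a finite graded basis with `Γ.index` elements. -/
theorem exists_gbasis (Γ : Subgroup SL(2, ℤ)) [Γ.FiniteIndex] (hneg : (-1 : SL(2, ℤ)) ∈ Γ)
    (hprim : ∃ (k : ℤ) (f : ℍ → ℂ), IsMF Γ k f ∧ ∀ γ : SL(2, ℤ), f ∣[k] γ = f → γ ∈ Γ) :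
    Nonempty (GBasis Γ) := by
  obtain ⟨W⟩ := exists_wbasis Γ
  exact exists_gbasis_of_wbasis Γ W (fun z => W.rows_linearIndependent hneg z) hprim

/-- Rows of the conjugate matrix of a graded basis are independent at every point. -/
theorem rows_li [Γ.FiniteIndex] (hneg : (-1 : SL(2, ℤ)) ∈ Γ) (B : GBasis Γ) (z : ℍ) :
    LinearIndependent ℂ (fun i => B.A z i) :=
  B.toWBasis.rows_linearIndependent hneg z

/-- The index type of a graded basis is in bijection with the cosets. -/
theorem nonempty_equiv [Γ.FiniteIndex] (B : GBasis Γ) : Nonempty (B.ι ≃ SL(2, ℤ) ⧸ Γ) := by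
  classical
  have : Fintype (SL(2, ℤ) ⧸ Γ) := Fintype.ofFinite _
  refine ⟨Fintype.equivOfCardEq ?_⟩
  rw [B.card_eq, Subgroup.index, Nat.card_eq_fintype_card]

/-- Exactly one generator of a graded basis has weight `0`. -/
theorem card_weight_zero [Γ.FiniteIndex] (B : GBasis Γ) :
    (Finset.univ.filter (fun i => B.k i = 0)).card = 1 := by
  classical
  have hconst : ∀ c : ℂ, IsMF ⊤ 0 (fun _ : ℍ => c) := by
    intro c
    have h := IsMF.smul c EllCount.isMF_top_one
    have e : (c • (1 : ℍ → ℂ)) = fun _ : ℍ => c := by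
      funext z; simp
    rwa [e] at h
  -- existence
  obtain ⟨r, hr, h1⟩ := B.repr 0 (1 : ℍ → ℂ) (EllCount.isMF_top_one.mono le_top)
  have hex : ∃ i, B.k i = 0 := by
    by_contra hne
    push Not at hne
    have hr0 : ∀ i, r i = 0 := fun i =>
      (hr i).eq_zero_of_neg (by have := Nat.pos_of_ne_zero (hne i); omega)
    have h10 : (1 : ℍ → ℂ) = 0 := by rw [h1]; simp [hr0]
    have := congrFun h10 UpperHalfPlane.I
    simp at this
  obtain ⟨i0, hi0⟩ := hex
  rw [Finset.card_eq_one]
  refine ⟨i0, ?_⟩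
  ext j
  simp only [Finset.mem_filter, Finset.mem_univ, true_and, Finset.mem_singleton]
  constructor
  · intro hj
    by_contra hne
    have hei : IsMF Γ 0 (B.e i0) := by simpa [hi0] using B.isMF i0
    have hej : IsMF Γ 0 (B.e j) := by simpa [hj] using B.isMF j
    obtain ⟨ci, hci⟩ := hei.eq_const_of_weight_zero
    obtain ⟨cj, hcj⟩ := hej.eq_const_of_weight_zero
    have key := B.uniq 0
      (fun l => if l = i0 then (fun _ : ℍ => cj) else if l = j then (fun _ : ℍ => -ci) else 0)
      (fun l => by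
        by_cases hl : l = i0
        · subst hl
          simp only [if_true, hi0, Nat.cast_zero, sub_self]
          exact hconst cj
        · by_cases hl' : l = j
          · subst hl'
            simp only [hl, if_false, if_true, hj, Nat.cast_zero, sub_self]
            exact hconst (-ci)
          · simp only [hl, hl', if_false]
            exact IsMF.zero _ _)
      (by
        rw [Finset.sum_eq_add_of_mem i0 j (Finset.mem_univ _) (Finset.mem_univ _)
          (fun h => hne h.symm)]
        · simp only [if_true, hne, if_false]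
          rw [hci, hcj]
          funext z
          simp
          ring
        · intro l _ hl
          simp [hl.1, hl.2])
    have h0 := congrFun (key i0) UpperHalfPlane.I
    simp only [if_true, Pi.zero_apply] at h0
    have : B.e j = 0 := by rw [hcj, h0]; rfl
    exact EllCount.gbasis_e_ne_zero B j this
  · rintro rfl
    exact hi0

end Final

/-- The general dimension formula for weight 2 cusp forms of a finite index subgroup `Γ ∋ -1`
admitting a "primitive" form. -/
theorem finrank_CF_two_eq (Γ : Subgroup SL(2, ℤ)) [Γ.FiniteIndex] (hneg : (-1 : SL(2, ℤ)) ∈ Γ)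
    (hprim : ∃ (k : ℤ) (f : ℍ → ℂ), IsMF Γ k f ∧ ∀ γ : SL(2, ℤ), f ∣[k] γ = f → γ ∈ Γ) :
    (Module.finrank ℂ (CFsub Γ 2) : ℚ) =
      1 + (Γ.index : ℚ) / 12 - (nu2 Γ : ℚ) / 4 - (nu3 Γ : ℚ) / 3 - (cuspsNum Γ : ℚ) / 2 := by
  obtain ⟨B⟩ := Final.exists_gbasis Γ hneg hprim
  obtain ⟨ε⟩ := Final.nonempty_equiv B
  have heven : ∀ i, Even (B.k i) := fun i => EllCount.gbasis_even B hneg i
  have hdet : ∀ z, (B.Asq ε z).det ≠ 0 := fun z =>
    MatHol.asq_det_ne_zero_of_li B ε z (Final.rows_li hneg B z)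
  have hdecay : ∀ i j : B.ι, IsZeroAtImInfty (fun z => Δf z * (B.Asq ε z)⁻¹ j i) :=
    fun i j => CuspsDFT.inv_decay hneg B ε i j
  have h4 := EllCount.count_mod4_of_li B hneg (Final.rows_li hneg B _)
  have h6 := EllCount.count_mod6_of_li B hneg (Final.rows_li hneg B _)
  rw [DualBasis.finrank_CF_two_of B ε (hdet := hdet) (heven := heven) (hdecay := hdecay)]
  exact numerics B.k Γ.index (nu2 Γ) (nu3 Γ) (cuspsNum Γ) heven
    (DualBasis.weight_le_ten_of B ε (hdet := hdet) (heven := heven) (hdecay := hdecay))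
    B.card_eq (Final.card_weight_zero B) h4 h6.1 h6.2
    (SumWeights.sum_weights_of_asymp hneg B ε (CuspsDFT.det_sq_asymp hneg B ε) (cuspsNum_le_index Γ))

/-- A primitive form for `Γ₀(N)`: `θ = N³ E₄(N z)` (from the S23 library). -/
theorem exists_primitive_Gamma0 (N : ℕ) [NeZero N] :
    ∃ (k : ℤ) (f : ℍ → ℂ), IsMF (Gamma0 N) k f ∧
      ∀ γ : SL(2, ℤ), f ∣[k] γ = f → γ ∈ Gamma0 N := by
  obtain ⟨θ, -, hθ⟩ := Fermat.Agent.S23.exists_theta N
  exact ⟨4, ⇑θ, isMF_coe_modularForm (Gamma0 N) 4 θ, hθ⟩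

theorem result (N : ℕ) [NeZero N] :
    (Module.finrank ℂ (CuspForm (CongruenceSubgroup.Gamma0 N) 2) : ℚ) = ModularCurve.genusFormula N := by
  rw [finrank_cuspForm_eq, finrank_CF_two_eq (Gamma0 N) (Count.neg_one_mem_Gamma0 N)
    (exists_primitive_Gamma0 N), Count.index_Gamma0]
  have h2 : nu2 (Gamma0 N) = ModularCurve.nuTwo N := Count.card_fixedBy_S N
  have h3 : nu3 (Gamma0 N) = ModularCurve.nuThree N := Count.card_fixedBy_ST N
  have hc : cuspsNum (Gamma0 N) = ModularCurve.cuspCount N := Count.card_orbits_T N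
  rw [h2, h3, hc]
  rfl

end Fermat.Agent.S20
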