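-- Statement S02: FreyPackage.of_counterexample.
import Fermat.Statements.S02

set_option autoImplicit false
open FreyPackage

namespace Fermat.Agent.S02

/-- The coprime case: swap / negate to reach the Frey normal form. -/
theorem of_coprime (p : ℕ) (pp : p.Prime) (hp5 : 5 ≤ p) (a b c : ℤ) (ha : a ≠ 0) (hb : b ≠ 0)
    (hc : c ≠ 0) (hab : gcd a b = 1) (H : a ^ p + b ^ p = c ^ p) :
    Nonempty FreyPackage := by
  have p_odd : Odd p := pp.odd_of_ne_two (by omega)
  have hp0 : p ≠ 0 := by omega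
  -- first make `b` even
  wlog hb2 : Even b generalizing a b c
  · by_cases ha2 : Even a
    · -- `a` even, `b` odd: swap
      exact this b a c hb ha hc (by rw [gcd_comm]; exact hab) (by rw [add_comm]; exact H) ha2
    · -- both odd, hence `c` even
      have hc2 : Even c := by
        have h1 : Even (c ^ p) := by
          rw [← H, Int.even_add, Int.even_pow' hp0, Int.even_pow' hp0]
          exact iff_of_false ha2 hb2
        exact (Int.even_pow' hp0).1 h1
      refine this a (-c) (-b) ha (neg_ne_zero.2 hc) (neg_ne_zero.2 hb) ?_ ?_ hc2.neg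
      · rw [gcd_neg]
        rw [← gcdab_eq_gcdac (Nat.pos_of_ne_zero hp0) H]
        exact hab
      · rw [p_odd.neg_pow, p_odd.neg_pow]
        linarith
  -- now `b` is even and `a` is odd
  have ha2 : ¬ Even a := by
    intro ha2
    have h2a : (2 : ℤ) ∣ a := even_iff_two_dvd.1 ha2
    have h2b : (2 : ℤ) ∣ b := even_iff_two_dvd.1 hb2
    have h2 : (2 : ℤ) ∣ gcd a b := dvd_gcd h2a h2b
    rw [hab] at h2
    norm_num at h2
  wlog ha4 : (a : ZMod 4) = 3 generalizing a b c
  · refine this (-a) (-b) (-c) (neg_ne_zero.2 ha) (neg_ne_zero.2 hb) (neg_ne_zero.2 hc) ?_ ?_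
      hb2.neg (by simpa using ha2) ?_
    · rw [gcd_neg, neg_gcd]; exact hab
    · rw [p_odd.neg_pow, p_odd.neg_pow, p_odd.neg_pow]
      linarith
    · have h1 : a % 4 = 1 := by
        have h3 : ¬ a % 4 = 3 := by
          intro h3
          apply ha4
          have : ((a : ℤ) : ZMod 4) = ((3 : ℤ) : ZMod 4) :=
            (ZMod.intCast_eq_intCast_iff' a 3 4).2 (by simpa using h3)
          simpa using this
        have hodd : a % 2 = 1 := Int.not_even_iff.1 ha2
        omega
      have : (((-a : ℤ)) : ZMod 4) = ((3 : ℤ) : ZMod 4) :=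
        (ZMod.intCast_eq_intCast_iff' (-a) 3 4).2 (by
          have : (-a) % 4 = 3 := by omega
          simpa using this)
      simpa using this
  have hb2' : (b : ZMod 2) = 0 :=
    (ZMod.intCast_zmod_eq_zero_iff_dvd b 2).2 (by simpa using even_iff_two_dvd.1 hb2)
  exact ⟨⟨a, b, c, ha, hb, hc, p, pp, hp5, H, hab, ha4, hb2'⟩⟩

theorem result (a b c : ℤ) (ha : a ≠ 0) (hb : b ≠ 0) (hc : c ≠ 0) (p : ℕ) (pp : p.Prime) (hp5 : 5 ≤ p) (H : a ^ p + b ^ p = c ^ p) : Nonempty FreyPackage := by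
  have hp0 : p ≠ 0 := by omega
  have hd : 0 < Int.gcd a b := Int.gcd_pos_of_ne_zero_left b ha
  obtain ⟨a', b', hab', ha', hb'⟩ := Int.exists_gcd_one hd
  have hdpos : (0 : ℤ) < (Int.gcd a b : ℤ) := by exact_mod_cast hd
  set d : ℤ := (Int.gcd a b : ℤ) with hd_def
  have hd0 : d ≠ 0 := hdpos.ne'
  have hdc : d ∣ c := by
    rw [← Int.pow_dvd_pow_iff hp0, ← H]
    apply dvd_add <;> rw [Int.pow_dvd_pow_iff hp0]
    · exact Int.gcd_dvd_left a b
    · exact Int.gcd_dvd_right a b
  obtain ⟨c', hc'⟩ := hdc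
  have ha'0 : a' ≠ 0 := by
    rintro rfl
    apply ha
    rw [ha']; simp
  have hb'0 : b' ≠ 0 := by
    rintro rfl
    apply hb
    rw [hb']; simp
  have hc'0 : c' ≠ 0 := by
    rintro rfl
    apply hc
    rw [hc']; simp
  have H' : a' ^ p + b' ^ p = c' ^ p := by
    have hdp : d ^ p ≠ 0 := pow_ne_zero p hd0
    apply mul_right_cancel₀ hdp
    calc (a' ^ p + b' ^ p) * d ^ p = (a' * d) ^ p + (b' * d) ^ p := by ring
      _ = a ^ p + b ^ p := by rw [← ha', ← hb']
      _ = c ^ p := H
      _ = (d * c') ^ p := by rw [hc']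
      _ = c' ^ p * d ^ p := by ring
  have hab'' : gcd a' b' = 1 := by
    rw [← Int.coe_gcd, hab']; rfl
  exact of_coprime p pp hp5 a' b' c' ha'0 hb'0 hc'0 hab'' H'

end Fermat.Agent.S02
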