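import Fermat.Statements.S05
import Fermat.Agent.S05.Assemble
import Fermat.Agent.S05.Inertia
import Fermat.Agent.S05.LocalGood
import Fermat.Agent.S05.LocalMult

set_option autoImplicit false
open WeierstrassCurve WeierstrassCurve.Affine WeierstrassCurve.Affine.Point
open CuspForm ModularFormClass UpperHalfPlane
open FreyPackage

namespace Fermat.Agent.S05

/-- The core: `σ` in the inertia group at `q` fixes the `p`-torsion of the Frey curve. -/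
theorem frey_fixed (P : FreyPackage) {q : ℕ} (hq : q.Prime) (hq2 : q ≠ 2) (hqp : q ≠ P.p)
    (A : ValuationSubring (AlgebraicClosure ℚ)) (hA : A.LiesOverPrime q)
    (σ : AlgebraicClosure ℚ ≃ₐ[ℚ] AlgebraicClosure ℚ) (hσ : σ ∈ A.inertiaSubgroupIn ℚ)
    (Q : ((P.freyCurve)⁄(AlgebraicClosure ℚ)).Point) (hQ : P.p • Q = 0) :
    Point.map (W' := P.freyCurve) σ.toAlgHom Q = Q := by
  set K := AlgebraicClosure ℚ with hK
  set v := A.valuation with hv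
  have hqA : v (q : K) < 1 := by
    have : (q : K) ∈ A.nonunits := hA
    rwa [ValuationSubring.mem_nonunits_iff] at this
  have hσ' : ∀ x : K, v x ≤ 1 → v (σ x - x) < 1 := fun x hx => inertia_spec A σ hσ x hx
  have hqi : Prime (q : ℤ) := Nat.prime_iff_prime_int.mp hq
  -- valuations of 2 and p
  have h2 : v (2 : K) = 1 := by
    have h : ¬ (q : ℤ) ∣ (2 : ℤ) := by
      intro h
      have h' : q ∣ 2 := by exact_mod_cast h
      exact hq2 ((Nat.prime_dvd_prime_iff_eq hq Nat.prime_two).mp h')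
    have := val_intCast_eq_one A hq hqA h
    simpa using this
  have hpv : v ((P.p : ℕ) : K) = 1 := by
    have h : ¬ (q : ℤ) ∣ ((P.p : ℕ) : ℤ) := by
      intro h
      have h' : q ∣ P.p := by exact_mod_cast h
      exact hqp ((Nat.prime_dvd_prime_iff_eq hq P.pp).mp h')
    have := val_intCast_eq_one A hq hqA h
    simpa using this
  have hp2 : P.p ≠ 2 := by have := P.hp5; omega
  have h2K : (2 : K) ≠ 0 := two_ne_zero
  -- coprimality
  have hab : (q : ℤ) ∣ P.a → (q : ℤ) ∣ P.b → False := fun h1 h2 =>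
    hqi.not_dvd_one (P.hgcdab ▸ dvd_gcd h1 h2)
  have hac : (q : ℤ) ∣ P.a → (q : ℤ) ∣ P.c → False := fun h1 h2 =>
    hqi.not_dvd_one (P.hgcdac ▸ dvd_gcd h1 h2)
  have hbc : (q : ℤ) ∣ P.b → (q : ℤ) ∣ P.c → False := fun h1 h2 =>
    hqi.not_dvd_one (P.hgcdbc ▸ dvd_gcd h1 h2)
  have hFLT := P.hFLT
  have hFLTQ : (P.a : ℚ) ^ P.p + (P.b : ℚ) ^ P.p = (P.c : ℚ) ^ P.p := by exact_mod_cast hFLT
  have ha0 : (P.a : ℚ) ≠ 0 := by exact_mod_cast P.ha0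
  have hb0 : (P.b : ℚ) ≠ 0 := by exact_mod_cast P.hb0
  have hc0 : (P.c : ℚ) ≠ 0 := by exact_mod_cast P.hc0
  have hE₁ : P.freyCurve.a₁ = 1 := rfl
  have hE₂ : P.freyCurve.a₂ = ((P.b : ℚ) ^ P.p - 1 - (P.a : ℚ) ^ P.p) / 4 := rfl
  have hE₃ : P.freyCurve.a₃ = 0 := rfl
  have hE₄ : P.freyCurve.a₄ = -((P.a : ℚ) ^ P.p) * ((P.b : ℚ) ^ P.p) / 16 := rfl
  have hE₆ : P.freyCurve.a₆ = 0 := rfl
  by_cases hc : (q : ℤ) ∣ P.c
  · -- multiplicative reduction, `q ∣ c`: model `Y² = X (X + a^p) (X + c^p)`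
    have hna : ¬ (q : ℤ) ∣ P.a := fun h => hac h hc
    let W₀ : Affine ℚ := ⟨0, (P.a : ℚ) ^ P.p + (P.c : ℚ) ^ P.p, 0,
      (P.a : ℚ) ^ P.p * (P.c : ℚ) ^ P.p, 0⟩
    have hW : IsLeg W₀ := ⟨rfl, rfl, rfl⟩
    have e₂ : algebraMap ℚ K W₀.a₂ = ((P.a ^ P.p + P.c ^ P.p : ℤ) : K) := by
      have : W₀.a₂ = ((P.a ^ P.p + P.c ^ P.p : ℤ) : ℚ) := by
        show (P.a : ℚ) ^ P.p + (P.c : ℚ) ^ P.p = _
        push_cast; ring
      rw [this, map_intCast]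
    have e₄ : algebraMap ℚ K W₀.a₄ = ((P.a ^ P.p * P.c ^ P.p : ℤ) : K) := by
      have : W₀.a₄ = ((P.a ^ P.p * P.c ^ P.p : ℤ) : ℚ) := by
        show (P.a : ℚ) ^ P.p * (P.c : ℚ) ^ P.p = _
        push_cast; ring
      rw [this, map_intCast]
    have ha : v (algebraMap ℚ K W₀.a₂) = 1 := by
      rw [e₂]
      apply val_intCast_eq_one A hq hqA
      intro h
      have h1 : (q : ℤ) ∣ P.c ^ P.p := dvd_pow hc P.hp0
      have h2 : (q : ℤ) ∣ P.a ^ P.p := (dvd_add_left h1).mp h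
      exact hna (hqi.dvd_of_dvd_pow h2)
    have hb : v (algebraMap ℚ K W₀.a₄) < 1 := by
      rw [e₄]
      apply val_intCast_lt_one A hqA
      exact Dvd.dvd.mul_left (dvd_pow hc P.hp0) _
    have hb0' : W₀.a₄ ≠ 0 := mul_ne_zero (pow_ne_zero _ ha0) (pow_ne_zero _ hc0)
    have ht : W₀.a₄ = ((P.a : ℚ) * (P.c : ℚ)) ^ P.p := (mul_pow _ _ _).symm
    obtain ⟨β, hβ⟩ := IsAlgClosed.exists_pow_nat_eq (algebraMap ℚ K W₀.a₂) (n := 2) (by norm_num)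
    refine fixed_of_transfer P.freyCurve W₀ (-((P.a : ℚ) ^ P.p)) hE₁ hE₃ hE₆ hW ?_ ?_ ?_ h2K σ P.p
      (fun R hR => fixed_of_mult v W₀ hW σ hσ' h2 ha hb hb0' P.pp hp2 hpv ht hβ R hR) Q hQ
    · show (P.a : ℚ) ^ P.p + (P.c : ℚ) ^ P.p = _
      rw [hE₂, ← hFLTQ]; ring
    · show (P.a : ℚ) ^ P.p * (P.c : ℚ) ^ P.p = _
      rw [hE₂, hE₄, ← hFLTQ]; ring
    · rw [hE₂, hE₄]; ring
  · let W₀ : Affine ℚ := ⟨0, (P.b : ℚ) ^ P.p - (P.a : ℚ) ^ P.p, 0,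
      -((P.a : ℚ) ^ P.p * (P.b : ℚ) ^ P.p), 0⟩
    have hW : IsLeg W₀ := ⟨rfl, rfl, rfl⟩
    have e₂ : algebraMap ℚ K W₀.a₂ = ((P.b ^ P.p - P.a ^ P.p : ℤ) : K) := by
      have : W₀.a₂ = ((P.b ^ P.p - P.a ^ P.p : ℤ) : ℚ) := by
        show (P.b : ℚ) ^ P.p - (P.a : ℚ) ^ P.p = _
        push_cast; ring
      rw [this, map_intCast]
    have e₄ : algebraMap ℚ K W₀.a₄ = ((-(P.a ^ P.p * P.b ^ P.p) : ℤ) : K) := by
      have : W₀.a₄ = ((-(P.a ^ P.p * P.b ^ P.p) : ℤ) : ℚ) := by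
        show -((P.a : ℚ) ^ P.p * (P.b : ℚ) ^ P.p) = _
        push_cast; ring
      rw [this, map_intCast]
    have hT₂ : W₀.a₂ = 4 * P.freyCurve.a₂ + 1 - 3 * 0 := by
      show (P.b : ℚ) ^ P.p - (P.a : ℚ) ^ P.p = _
      rw [hE₂]; ring
    have hT₄ : W₀.a₄ = 16 * P.freyCurve.a₄ - 2 * 0 * (4 * P.freyCurve.a₂ + 1) + 3 * 0 ^ 2 := by
      show -((P.a : ℚ) ^ P.p * (P.b : ℚ) ^ P.p) = _
      rw [hE₂, hE₄]; ring
    have hT₆ : (0 : ℚ) ^ 3 - (4 * P.freyCurve.a₂ + 1) * 0 ^ 2 + 16 * P.freyCurve.a₄ * 0 = 0 := by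
      ring
    by_cases hab' : (q : ℤ) ∣ P.a * P.b
    · -- multiplicative reduction, `q ∣ a b`: model `Y² = X (X - a^p) (X + b^p)`
      have ha : v (algebraMap ℚ K W₀.a₂) = 1 := by
        rw [e₂]
        apply val_intCast_eq_one A hq hqA
        intro h
        rcases hqi.dvd_or_dvd hab' with h1 | h1
        · have h2 : (q : ℤ) ∣ P.a ^ P.p := dvd_pow h1 P.hp0
          have h3 : (q : ℤ) ∣ P.b ^ P.p := (dvd_sub_left h2).mp h
          exact hab h1 (hqi.dvd_of_dvd_pow h3)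
        · have h2 : (q : ℤ) ∣ P.b ^ P.p := dvd_pow h1 P.hp0
          have h3 : (q : ℤ) ∣ P.a ^ P.p := (dvd_sub_right h2).mp h
          exact hab (hqi.dvd_of_dvd_pow h3) h1
      have hb : v (algebraMap ℚ K W₀.a₄) < 1 := by
        rw [e₄]
        apply val_intCast_lt_one A hqA
        rw [dvd_neg, ← mul_pow]
        exact dvd_pow hab' P.hp0
      have hb0' : W₀.a₄ ≠ 0 :=
        neg_ne_zero.mpr (mul_ne_zero (pow_ne_zero _ ha0) (pow_ne_zero _ hb0))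
      have ht : W₀.a₄ = (-((P.a : ℚ) * (P.b : ℚ))) ^ P.p := by
        show -((P.a : ℚ) ^ P.p * (P.b : ℚ) ^ P.p) = _
        rw [P.hp_odd.neg_pow, mul_pow]
      obtain ⟨β, hβ⟩ :=
        IsAlgClosed.exists_pow_nat_eq (algebraMap ℚ K W₀.a₂) (n := 2) (by norm_num)
      exact fixed_of_transfer P.freyCurve W₀ 0 hE₁ hE₃ hE₆ hW hT₂ hT₄ hT₆ h2K σ P.p
        (fun R hR => fixed_of_mult v W₀ hW σ hσ' h2 ha hb hb0' P.pp hp2 hpv ht hβ R hR) Q hQ
    · -- good reduction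
      have hna : ¬ (q : ℤ) ∣ P.a := fun h => hab' (Dvd.dvd.mul_right h _)
      have hnb : ¬ (q : ℤ) ∣ P.b := fun h => hab' (Dvd.dvd.mul_left h _)
      have ha : v (algebraMap ℚ K W₀.a₂) ≤ 1 := by
        rw [e₂]; exact val_intCast_le_one A _
      have hb : v (algebraMap ℚ K W₀.a₄) ≤ 1 := by
        rw [e₄]; exact val_intCast_le_one A _
      have hΔ : v (algebraMap ℚ K (W₀.a₄ * (W₀.a₂ ^ 2 - 4 * W₀.a₄))) = 1 := by
        have e : algebraMap ℚ K (W₀.a₄ * (W₀.a₂ ^ 2 - 4 * W₀.a₄))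
            = ((-(P.a ^ P.p * P.b ^ P.p * (P.c ^ P.p) ^ 2) : ℤ) : K) := by
          have : W₀.a₄ * (W₀.a₂ ^ 2 - 4 * W₀.a₄)
              = ((-(P.a ^ P.p * P.b ^ P.p * (P.c ^ P.p) ^ 2) : ℤ) : ℚ) := by
            show -((P.a : ℚ) ^ P.p * (P.b : ℚ) ^ P.p)
              * (((P.b : ℚ) ^ P.p - (P.a : ℚ) ^ P.p) ^ 2
                - 4 * -((P.a : ℚ) ^ P.p * (P.b : ℚ) ^ P.p)) = _
            push_cast
            rw [← hFLTQ]; ring
          rw [this, map_intCast]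
        rw [e]
        apply val_intCast_eq_one A hq hqA
        rw [dvd_neg]
        intro h
        rcases hqi.dvd_or_dvd h with h1 | h1
        · rcases hqi.dvd_or_dvd h1 with h2 | h2
          · exact hna (hqi.dvd_of_dvd_pow h2)
          · exact hnb (hqi.dvd_of_dvd_pow h2)
        · exact hc (hqi.dvd_of_dvd_pow (hqi.dvd_of_dvd_pow h1))
      exact fixed_of_transfer P.freyCurve W₀ 0 hE₁ hE₃ hE₆ hW hT₂ hT₄ hT₆ h2K σ P.p
        (fun R hR => fixed_of_good v W₀ hW σ hσ' h2 ha hb hΔ hpv R hR) Q hQ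

theorem result (P : FreyPackage) {q : ℕ} (hq : q.Prime) (hq2 : q ≠ 2) (hqp : q ≠ P.p) : P.GaloisRepUnramifiedAt q := by
  intro A hA σ hσ x
  apply Subtype.ext
  have hx : P.p • x.1 = 0 := by
    have := x.2
    rw [Submodule.mem_torsionBy_iff] at this
    rwa [natCast_zsmul] at this
  exact frey_fixed P hq hq2 hqp A hA σ hσ x.1 hx

end Fermat.Agent.S05
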