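import Fermat.Statements.S07
import Fermat.Prelude.Thm_ModularForm_sturm_bound_Gamma0
import Fermat.Prelude.Thm_CongruenceSubgroup_one_mem_strictPeriods_Gamma0
-- import your own Fermat.Agent.* helpers here

set_option autoImplicit false
open WeierstrassCurve WeierstrassCurve.Affine WeierstrassCurve.Affine.Point
open CuspForm ModularFormClass UpperHalfPlane
open ModularForm

namespace Fermat.Agent.S07

open scoped MatrixGroups

/-- The first column of a matrix in `SL(2, ℤ)`, reduced modulo `2`. -/
noncomputable def firstColMod2 (A : SL(2, ℤ)) : ZMod 2 × ZMod 2 :=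
  (((A 0 0 : ℤ) : ZMod 2), ((A 1 0 : ℤ) : ZMod 2))

/-- If two matrices of `SL(2, ℤ)` have the same first column modulo `2`, they lie in the same
left coset of `Γ₀(2)`. -/
theorem inv_mul_mem_Gamma0_two (A B : SL(2, ℤ)) (h : firstColMod2 A = firstColMod2 B) :
    A⁻¹ * B ∈ CongruenceSubgroup.Gamma0 2 := by
  rw [CongruenceSubgroup.Gamma0_mem]
  have h1 : ((A 0 0 : ℤ) : ZMod 2) = ((B 0 0 : ℤ) : ZMod 2) := congrArg Prod.fst h
  have h2 : ((A 1 0 : ℤ) : ZMod 2) = ((B 1 0 : ℤ) : ZMod 2) := congrArg Prod.snd h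
  have hmul := (Matrix.two_mul_expl (A⁻¹).1 B.1).2.2.1
  have hinv := Matrix.SpecialLinearGroup.SL2_inv_expl A
  have e10 : (A⁻¹ * B) 1 0 = (-(A 1 0)) * B 0 0 + A 0 0 * B 1 0 := by
    rw [Matrix.SpecialLinearGroup.coe_mul, hmul, hinv]
    simp
  rw [e10]
  push_cast
  rw [← h1, ← h2]
  ring

/-- The index of `Γ₀(2)` in `SL(2, ℤ)` is at most `4` (it is in fact `3`). -/
theorem index_Gamma0_two_le : (CongruenceSubgroup.Gamma0 2).index ≤ 4 := by
  classical
  have hinj : Function.Injective
      (fun q : SL(2, ℤ) ⧸ CongruenceSubgroup.Gamma0 2 => firstColMod2 q.out) := by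
    intro q₁ q₂ h
    have h' := inv_mul_mem_Gamma0_two _ _ h
    rw [← QuotientGroup.eq] at h'
    simpa using h'
  have hle := Nat.card_le_card_of_injective _ hinj
  have h4 : Nat.card (ZMod 2 × ZMod 2) = 4 := by
    simp
  rw [h4] at hle
  exact hle

theorem result (f : CuspForm (CongruenceSubgroup.Gamma0 2) 2) : f = 0 := by
  have hidx := index_Gamma0_two_le
  have key : (f : ModularForm (CongruenceSubgroup.Gamma0 2) 2) = 0 := by
    apply ModularForm.sturm_bound_Gamma0 2
    intro n hn
    have hn0 : n = 0 := by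
      have : (2 * ((CongruenceSubgroup.Gamma0 2).index : ℤ)).toNat / 12 = 0 := by
        omega
      omega
    subst hn0
    exact CuspFormClass.qExpansion_coeff_zero f (by norm_num)
      (CongruenceSubgroup.one_mem_strictPeriods_Gamma0 2)
  ext z
  have := DFunLike.congr_fun key z
  simpa using this

end Fermat.Agent.S07
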