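import Fermat.Statements.S08

set_option autoImplicit false
open WeierstrassCurve WeierstrassCurve.Affine WeierstrassCurve.Affine.Point
open CuspForm ModularFormClass UpperHalfPlane
open ModularForm

namespace Fermat.Agent.S08

open scoped MatrixGroups in
/-- The image of `Γ₀(1)` in `GL₂(ℝ)` is the image of the whole of `SL₂(ℤ)`. -/
theorem gamma0_one_eq :
    ((CongruenceSubgroup.Gamma0 1 : Subgroup SL(2, ℤ)) : Subgroup (GL (Fin 2) ℝ)) = 𝒮ℒ := by
  have h : (CongruenceSubgroup.Gamma0 1 : Subgroup SL(2, ℤ)) = ⊤ := by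
    ext A
    simp [CongruenceSubgroup.Gamma0_mem, Subsingleton.elim (_ : ZMod 1) 0]
  rw [h]
  exact (MonoidHom.range_eq_map _).symm

open scoped MatrixGroups in
/-- Weight-2 cusp forms for any subgroup equal to the full level-one group vanish. -/
theorem cuspForm_eq_zero_of_eq_levelOne (G : Subgroup (GL (Fin 2) ℝ)) (hG : G = 𝒮ℒ)
    (f : CuspForm G 2) : f = 0 := by
  subst hG
  exact rank_zero_iff_forall_zero.mp
    (CuspForm.rank_eq_zero_of_weight_lt_twelve (by norm_num)) f

theorem result (f : CuspForm (CongruenceSubgroup.Gamma0 1) 2) : f = 0 := by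
  exact cuspForm_eq_zero_of_eq_levelOne _ gamma0_one_eq f

end Fermat.Agent.S08
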