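import Fermat.Statements.S10
import Fermat.Agent.Lib.FLTReg.Glue
import Fermat.Agent.Lib.FLTReg.SophieGermain
import Fermat.Agent.Lib.FLTReg.PID7
import Fermat.Agent.Lib.FLTReg.PID13
import Fermat.Agent.Lib.FLTReg.KummerSmall

set_option autoImplicit false
open WeierstrassCurve WeierstrassCurve.Affine WeierstrassCurve.Affine.Point
open CuspForm ModularFormClass UpperHalfPlane
open FreyPackage

namespace Fermat.Agent.S10

/-- There is no Frey package with `p = 5`: Fermat's Last Theorem for exponent `5`. -/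
theorem no_freyPackage_five (P : FreyPackage) (hp : P.p = 5) : False := by
  have hp5 : Fact (Nat.Prime 5) := ⟨by norm_num⟩
  have hcyc := CyclotomicField.isCyclotomicExtension 5 ℚ
  have hpid := @IsCyclotomicExtension.Rat.five_pid (CyclotomicField 5 ℚ) _ _ hcyc
  have hKL := @Fermat.Agent.FLTReg.KummerSmall.kummerLemma_five (CyclotomicField 5 ℚ) _ _ hcyc
  exact @Fermat.Agent.FLTReg.freyPackage_false_of_pid_kummer P 5 hp5 hp (CyclotomicField 5 ℚ)
    _ _ hcyc hpid hKL
    (fun hab h => by exact_mod_cast Fermat.Agent.FLTReg.caseI_five hab h)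

/-- There is no Frey package with `p = 7`: Fermat's Last Theorem for exponent `7`. -/
theorem no_freyPackage_seven (P : FreyPackage) (hp : P.p = 7) : False := by
  have hp7 : Fact (Nat.Prime 7) := ⟨by norm_num⟩
  have hcyc := CyclotomicField.isCyclotomicExtension 7 ℚ
  have hpid := @Fermat.Agent.FLTReg.seven_pid (CyclotomicField 7 ℚ) _ _ hcyc
  have hKL := @Fermat.Agent.FLTReg.KummerSmall.kummerLemma_seven (CyclotomicField 7 ℚ) _ _ hcyc
  exact @Fermat.Agent.FLTReg.freyPackage_false_of_pid_kummer P 7 hp7 hp (CyclotomicField 7 ℚ)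
    _ _ hcyc hpid hKL
    (fun hab h => by exact_mod_cast Fermat.Agent.FLTReg.caseI_seven hab h)

/-- There is no Frey package with `p = 13`: Fermat's Last Theorem for exponent `13`. -/
theorem no_freyPackage_thirteen (P : FreyPackage) (hp : P.p = 13) : False := by
  have hp13 : Fact (Nat.Prime 13) := ⟨by norm_num⟩
  have hcyc := CyclotomicField.isCyclotomicExtension 13 ℚ
  have hpid := @Fermat.Agent.FLTReg.thirteen_pid (CyclotomicField 13 ℚ) _ _ hcyc
  have hKL := @Fermat.Agent.FLTReg.KummerSmall.kummerLemma_thirteen (CyclotomicField 13 ℚ) _ _ hcyc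
  exact @Fermat.Agent.FLTReg.freyPackage_false_of_pid_kummer P 13 hp13 hp (CyclotomicField 13 ℚ)
    _ _ hcyc hpid hKL
    (fun hab h => by exact_mod_cast Fermat.Agent.FLTReg.caseI_thirteen hab h)

theorem result (P : FreyPackage) (hp : P.p = 5 ∨ P.p = 7 ∨ P.p = 13) : ¬ HasGaloisStableCofixedLine (K := AlgebraicClosure ℚ) ℚ P.freyCurve P.p := by
  intro _
  rcases hp with hp | hp | hp
  · exact no_freyPackage_five P hp
  · exact no_freyPackage_seven P hp
  · exact no_freyPackage_thirteen P hp

end Fermat.Agent.S10
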