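import Fermat.Statements.S11
import Fermat.Agent.Lib.FLTReg.Glue
import Fermat.Agent.Lib.FLTReg.SophieGermain
import Fermat.Agent.Lib.FLTReg.PID11
import Fermat.Agent.Lib.FLTReg.Kummer11

set_option autoImplicit false
open WeierstrassCurve WeierstrassCurve.Affine WeierstrassCurve.Affine.Point
open CuspForm ModularFormClass UpperHalfPlane
open FreyPackage

namespace Fermat.Agent.S11

/-- There is no Frey package with `p = 11`: Fermat's Last Theorem for exponent `11`
(Kummer: `ℤ[ζ₁₁]` is a principal ideal domain and `11` is regular). -/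
theorem no_freyPackage_eleven (P : FreyPackage) (hp : P.p = 11) : False := by
  have hp11 : Fact (Nat.Prime 11) := ⟨by norm_num⟩
  have hcyc := CyclotomicField.isCyclotomicExtension 11 ℚ
  have hpid := @Fermat.Agent.FLTReg.eleven_pid (CyclotomicField 11 ℚ) _ _ hcyc
  have hKL := @Fermat.Agent.FLTReg.kummerLemma_eleven (CyclotomicField 11 ℚ) _ _ hcyc
  exact @Fermat.Agent.FLTReg.freyPackage_false_of_pid_kummer P 11 hp11 hp (CyclotomicField 11 ℚ)
    _ _ hcyc hpid hKL
    (fun hab h => by exact_mod_cast Fermat.Agent.FLTReg.caseI_eleven hab h)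

theorem result (P : FreyPackage) (hp : P.p = 11) : ¬ HasGaloisStableCofixedLine (K := AlgebraicClosure ℚ) ℚ P.freyCurve P.p := by
  intro _
  exact no_freyPackage_eleven P hp

end Fermat.Agent.S11
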