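-- Statement S14 (row 13): the Ext-vanishing property `ExtVanishingCts p` for every prime `p ≥ 3`.
-- Proof: Galois-side reduction (CFT/Red) + Frobenius density (Lib/Frob) + Stickelberger for
-- degree-one primes (CFT/Stick) + reciprocity for everywhere-unramified cyclic extensions of
-- degree `p` of `ℚ(ζ_p)` (CFT/Recip: second inequality, Hasse norm theorem, transgression,
-- cyclotomic step), assembled in CFT/Core and CFT/Assembly.
import Fermat.Statements.S14
import Fermat.Agent.CFT.Assembly
import Fermat.Agent.CFT.Recip.Main

set_option autoImplicit false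
open ExtCitation

namespace Fermat.Agent.S14

theorem result {p : ℕ} [Fact p.Prime] (h3 : 3 ≤ p) :
    ExtCitation.ExtVanishingCts p :=
  Fermat.Agent.CFT.extVanishingCts_of_recip h3
    (Fermat.Agent.CFT.Recip.recip p (by omega) Fermat.Agent.Lib.Frob.primeArithFrobGenerates)

end Fermat.Agent.S14
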