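import Fermat.Statements.S13
import Fermat.Agent.S05
import Fermat.Agent.EC.Assemble
import Fermat.Agent.EC.FreyTors
import Fermat.Agent.EC.GlueLine
import Fermat.Agent.EC.GlueOpen
import Fermat.Agent.EC.FreyLoc2
import Fermat.Agent.EC.FreyLocP

set_option autoImplicit false
open WeierstrassCurve WeierstrassCurve.Affine WeierstrassCurve.Affine.Point
open CuspForm ModularFormClass UpperHalfPlane
open FreyPackage

namespace Fermat.Agent.S13

open Fermat.Agent.EC in
theorem result (P : FreyPackage) (hred : ¬ GaloisRepIsIrreducible (K := AlgebraicClosure ℚ) ℚ P.freyCurve P.p) : HasGaloisStableCofixedLine (K := AlgebraicClosure ℚ) ℚ P.freyCurve P.p := by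
  have hprime : Fact P.p.Prime := ⟨P.pp⟩
  have hfin : Finite (FreyV P) := frey_finite P
  have hcard : Nat.card (FreyV P) ≤ P.p ^ 2 := frey_card_le P
  -- a Galois-stable line
  obtain ⟨N, hN, hbot, htop⟩ : ∃ N : Submodule (ZMod P.p) (FreyV P),
      IsGaloisStable (K := AlgebraicClosure ℚ) ℚ N ∧ N ≠ ⊥ ∧ N ≠ ⊤ := by
    by_contra h
    apply hred
    refine ⟨frey_nontrivial P, fun N hN => ?_⟩
    by_contra h'
    rw [not_or] at h'
    exact h ⟨N, hN, h'.1, h'.2⟩
  obtain ⟨e, he, he0⟩ := Submodule.exists_mem_ne_zero_of_ne_bot hbot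
  obtain ⟨x₀, hx₀⟩ : ∃ x₀ : FreyV P, x₀ ∉ N := by
    by_contra h
    rw [not_exists] at h
    exact htop (eq_top_iff.mpr fun x _ => not_not.mp (h x))
  refine ⟨N, hN, hbot, htop, ?_⟩
  refine cofixed_of_local P (isOpen_fixing_of_finite P hfin) N hN he he0
    (fun y hy => line_span hcard N hbot htop he he0 y hy) hx₀
    (fun y => coline_span hcard N hbot htop hx₀ y) ?_ (frey_inertia_two P)
    (frey_inertia_p P N hN hbot htop) (frey_no_rational_torsion P)
  intro q hq hq2 hqp A hA σ hσ x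
  apply Subtype.ext
  exact Fermat.Agent.S05.frey_fixed P hq hq2 hqp A hA σ hσ x.1 (freyV_nsmul_coe P x)

end Fermat.Agent.S13
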