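-- Statement S16: Mazur's theorem on the Eisenstein ideal, `#(𝕋/I) = (p-1)/gcd(p-1,12)`.
-- Assembly: R0 (reduction + duality, `R0/*.lean`), EX (`EX/Main.lean`, Shimura class),
-- Eisenstein series (`Eis.lean`) and the non-existence half NE (`NE/*.lean`).
import Fermat.Statements.S16
import Fermat.Agent.S16.R0.Final
import Fermat.Agent.S16.NE.Final

set_option autoImplicit false
open ModularCurve CuspForm
open ModularCurve

namespace Fermat.Agent.S16

theorem result
    (p : ℕ) [Fact p.Prime] :
    Nat.card (↥(heckeLatticeAlgebra p ∅) ⧸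
        Ideal.map ((latticeRestrictHom p ∅).toRingHom.comp (heckeEvalForms p 2))
          (eisensteinIdeal p)) =
      eisensteinNumerator p :=
  Fermat.Agent.S16.R0.result_of_NE p fun hS m G h0 hn =>
    Fermat.Agent.S16.NE.main p hS m G h0 hn

end Fermat.Agent.S16
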