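-- S18 (ModularCurve.eq_zero_of_reductionModL_eq_zero_of_nsmul_eq_zero): reduction of divisor
-- classes of X₀(N) modulo a prime ℓ ∤ N is injective on torsion of order prime to ℓ.
-- Proof: Fermat.Agent.ESJ.eq_zero_of_reductionModL_eq_zero (ESJ/Red/R2Good.lean) — RED layer:
-- R1 at the good pairs (route G-A + KUMMER), R2 at the good pairs (PLACE + DISC), level descent
-- for ℓ = 2, 3.
import Fermat.Statements.S18
import Fermat.Agent.ESJ.Red.R2Good

set_option autoImplicit false
open ModularCurve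

namespace Fermat.Agent.S18

theorem result (N : ℕ) [NeZero N] {ℓ : ℕ}
    [Fact ℓ.Prime] (hℓN : ¬ ℓ ∣ N) (A : ValuationSubring (AlgebraicClosure ℚ)) (hA : A.LiesOverPrime ℓ)
    (h : ModularCurve.ReductionInputsModL A N) (m : ℕ) (hm : ¬ ℓ ∣ m) (z : ModularCurve.JZero N)
    (hmz : m • z = 0) (hz : ModularCurve.reductionModL A N z = 0) :
    z = 0 :=
  Fermat.Agent.ESJ.eq_zero_of_reductionModL_eq_zero N (Fact.out) hℓN A hA h m hm z hmz hz

end Fermat.Agent.S18
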