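-- S19 (row 18): for a prime ℓ not dividing the level, the ℓ^k-torsion of J₀(N) is,
-- Galois-equivariantly, the group of ℚ̄-points of a finite flat cocommutative Hopf algebra over
-- ℤ_(ℓ).  Proof: `Padic.S19_of` from the four layers of the PADIC project:
--   (DL)  descent of a local order at one place to ℤ_(ℓ)            — `Padic.dl`
--   (LOC) the local order at a place of good reduction               — `Padic.loc`
--   (GR)  good reduction data at the good pairs (ℓ, N)               — `Padic.gr`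
--   (L23) the level-raising transfer used at ℓ ∈ {2, 3}              — `Padic.l23`
import Fermat.Statements.S19
import Fermat.Agent.Padic.S19Of
import Fermat.Agent.Padic.DL
import Fermat.Agent.Padic.LocalOf
import Fermat.Agent.Padic.GoodRedFinal
import Fermat.Agent.Padic.Level23

set_option autoImplicit false
open ModularCurve
open ModularCurve

namespace Fermat.Agent.S19

theorem result
    (p : ℕ) [NeZero p] (ℓ : ℕ) [Fact ℓ.Prime] (hℓp : ¬ ℓ ∣ p) (k : ℕ) :
    ∃ (H : Type) (_ : CommRing H) (_ : HopfAlgebra (GaloisRep.ratLocalizedAt ℓ) H),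
      Module.Finite (GaloisRep.ratLocalizedAt ℓ) H ∧ Module.Flat (GaloisRep.ratLocalizedAt ℓ) H ∧
      Coalgebra.IsCocomm (GaloisRep.ratLocalizedAt ℓ) H ∧
      ∃ e : WithConv (H →ₐ[GaloisRep.ratLocalizedAt ℓ] AlgebraicClosure ℚ) ≃
          ↥(Submodule.torsionBy ℤ (JZero p) ((ℓ : ℤ) ^ k)),
        (∀ f g, e (f * g) = e f + e g) ∧
        ∀ (σ : AlgebraicClosure ℚ ≃ₐ[ℚ] AlgebraicClosure ℚ)
          (f g : WithConv (H →ₐ[GaloisRep.ratLocalizedAt ℓ] AlgebraicClosure ℚ)),
          (∀ h : H, g h = σ (f h)) → ((e g : JZero p)) = σ • (e f : JZero p) :=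
  Fermat.Agent.Padic.S19_of Fermat.Agent.Padic.dl Fermat.Agent.Padic.loc Fermat.Agent.Padic.gr
    Fermat.Agent.Padic.l23 p ℓ hℓp k

end Fermat.Agent.S19
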