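-- Statement S28 (row 27): the pullback of the Igusa scheme to a field of characteristic ℓ ∤ N
-- is integral.  Route T (reversed tower over the Gauss ring of ℤ_(ℓ)).
import Fermat.Statements.S28
import Fermat.Agent.S28.Final
import Fermat.Agent.S28.AssemblyT
import Fermat.Agent.S28.Char0Bridge
import Fermat.Agent.S28.ModEq.Data
import Fermat.Agent.S28.ModEqX.Main
import Fermat.Agent.S28.BaseCaseA
import Fermat.Agent.S28.TowerDefs

set_option autoImplicit false
open AlgebraicGeometry CategoryTheory CategoryTheory.Limits ModularCurve ModularCurve.IgusaScheme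
noncomputable section
set_option autoImplicit false
open ModularCurve ModularCurve.IgusaScheme

namespace Fermat.Agent.S28

/-- The modular equation of every prime level, as the integral data consumed by the tower. -/
theorem modEq_all (r : ℕ) (hr : r.Prime) : Nonempty (TD.ModEq r) := by
  have : NeZero r := ⟨hr.ne_zero⟩
  obtain ⟨D⟩ := ModEqX.exists_modEqData r hr
  exact ⟨Char0Bridge.modEqDataToTD D⟩

/-- The base case of every prime level: `J(q^r) ∉ K(J(q))` whenever `r ≠ 0` in `K`. -/
theorem baseCase_all (r : ℕ) (hr : r.Prime) : TD.BaseCase r := by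
  have : NeZero r := ⟨hr.ne_zero⟩
  obtain ⟨D⟩ := ModEqX.exists_modEqData r hr
  intro K _ hK
  have h := BaseCaseA.not_mem_adjoin_of_modEqData (K := K) hr D hK
  rw [TD.Jd_eq_jqNModC K r, TD.Jd_one]
  exact h

set_option maxHeartbeats 4000000 in
set_option synthInstance.maxHeartbeats 400000 in
theorem result
    (N : ℕ) [NeZero N] (ℓ : ℕ) [Fact ℓ.Prime] (hℓN : ¬ ℓ ∣ N)
    (K : Type) [Field K] [CharP K ℓ] [Algebra ↥(GaloisRep.ratLocalizedAt ℓ) K] :
    IsIntegral ↑(pullback (igusaTo N ℓ)
      (Spec.map (CommRingCat.ofHom (algebraMap ↥(GaloisRep.ratLocalizedAt ℓ) K)))) := by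
  exact result_of_qExpPrinciple N ℓ K
    (AssemblyT.qExpPrinciple_fin N ℓ hℓN K (fun r hr _ => modEq_all r hr)
      (fun r hr _ => baseCase_all r hr))
    (AssemblyT.qExpPrinciple_inf N ℓ hℓN K (fun r hr _ => modEq_all r hr)
      (fun r hr _ => baseCase_all r hr))

end Fermat.Agent.S28
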