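-- S30 (CuspForm.exists_galoisRep_of_point): a ring homomorphism from the weight-2 Hecke algebra of
-- level N (away from S) to a complete p-adic DVR has an attached 2-dimensional Galois representation.
-- Proof: ESJ trunk.  REP (Rep/S30OfA: adic extraction from the Tate module with anemic Hecke action)
-- + FROB (Frobenius density) + (K) Kummer comparison (Jac/Main.kummerCmp)
-- + (E) unramifiedness and the Eichler-Shimura relation on torsion (RedK/GoodRed.torsionESRelation).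
import Fermat.Statements.S30
import Fermat.Agent.ESJ.Rep.S30OfA
import Fermat.Agent.ESJ.Rep.FrobDens
import Fermat.Agent.ESJ.Rep.TateKummer
import Fermat.Agent.ESJ.Jac.Main
import Fermat.Agent.ESJ.RedK.GoodRed

set_option autoImplicit false
open Polynomial
open CuspForm

namespace Fermat.Agent.S30

theorem result :
    ∀ (p : ℕ) [Fact p.Prime] (N : ℕ) [NeZero N] (S : Finset ℕ)
      (_hpS : p ∈ S) (_hNS : ∀ q : ℕ, q.Prime → q ∣ N → q ∈ S)
      (𝒪' : Type) [CommRing 𝒪'] [IsDomain 𝒪'] [IsDiscreteValuationRing 𝒪']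
      [IsAdicComplete (IsLocalRing.maximalIdeal 𝒪') 𝒪'] [Finite (IsLocalRing.ResidueField 𝒪')]
      [CharZero 𝒪'] (_hp𝒪' : (p : 𝒪') ∈ IsLocalRing.maximalIdeal 𝒪')
      (χ : CuspForm.heckeAlgebra N 2 (↑S : Set ℕ) →+* 𝒪'),
      ∃ (𝒪'' : Type) (_ : CommRing 𝒪'') (_ : IsDomain 𝒪'') (_ : IsDiscreteValuationRing 𝒪'')
        (_ : IsAdicComplete (IsLocalRing.maximalIdeal 𝒪'') 𝒪'')
        (_ : Finite (IsLocalRing.ResidueField 𝒪'')) (_ : CharZero 𝒪'')
        (_ : Algebra 𝒪' 𝒪'') (_ : Module.Finite 𝒪' 𝒪'') (_ : IsLocalHom (algebraMap 𝒪' 𝒪'')),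
      Function.Injective (algebraMap 𝒪' 𝒪'') ∧
      ∃ ρ : GaloisRepAdic 𝒪'',
        (∀ (ℓ : ℕ) (hℓ : ℓ.Prime) (hℓN : ¬ ℓ ∣ N) (hℓS : ℓ ∉ (↑S : Set ℕ)),
          ∀ A : ValuationSubring (AlgebraicClosure ℚ), A.LiesOverPrime ℓ →
            ∀ σ : AlgebraicClosure ℚ ≃ₐ[ℚ] AlgebraicClosure ℚ, A.IsFrobeniusAt σ ℓ →
              LinearMap.charpoly (ρ.ρ σ) =
                X ^ 2 - C (algebraMap 𝒪' 𝒪'' (χ (CuspForm.heckeAlgebra.T hℓ hℓN hℓS))) * X
                  + C ((ℓ : 𝒪''))) ∧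
        (∀ q : ℕ, q.Prime → ¬ q ∣ N → q ≠ p → ρ.IsUnramifiedAt q) :=
  Fermat.Agent.ESJ.Rep.S30_ofA Fermat.Agent.ESJ.Rep.frobDensity
    (Fermat.Agent.ESJ.Rep.tateDatumAExists_of_tateCmpAExists
      (Fermat.Agent.ESJ.Rep.TateKummer.tateCmpAExists_of
        (fun p N _ _ => Fermat.Agent.ESJ.kummerCmp N p (Fact.out : p.Prime).pos)
        (fun p N _ _ => Fermat.Agent.ESJ.RedK.torsionESRelation N p)))

end Fermat.Agent.S30
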