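-- S32 (CuspForm.HeckeGaloisRepDatum.isFlatAt_of_primeFactors_subset): in a Hecke–Galois datum of
-- level N away from S, with p odd and p ∤ N, the Galois representation is flat at p.
-- Proof: `Padic.S32.S32_of` (comparison of the datum with the Hecke torsion modules of J₀(N),
-- Brauer–Nesbitt/Carayol lifting and closure of Hopf orders under subquotients) from
--   * the trunk target of the Eichler–Shimura layer with torsion level maps
--     (`ESJ.Rep.tateCmpATorsExists_of`, inputs: Kummer comparison and the torsion ES relation),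
--   * S19 at level N and the prime p (`Padic.S19_of dl loc gr l23`).
import Fermat.Statements.S32
import Fermat.Agent.Padic.S32.Final
import Fermat.Agent.Padic.S19Of
import Fermat.Agent.Padic.DL
import Fermat.Agent.Padic.LocalOf
import Fermat.Agent.Padic.GoodRedFinal
import Fermat.Agent.Padic.Level23
import Fermat.Agent.ESJ.Rep.TateTors
import Fermat.Agent.ESJ.Jac.Main
import Fermat.Agent.ESJ.RedK.GoodRed

set_option autoImplicit false
variable {p : ℕ} {N : ℕ} [NeZero N] {S : Finset ℕ}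
  {𝒪 : Type} [CommRing 𝒪] [IsDomain 𝒪] [IsDiscreteValuationRing 𝒪]
  [IsAdicComplete (IsLocalRing.maximalIdeal 𝒪) 𝒪]
  {θ : CuspForm.heckeAlgebra N 2 (↑S : Set ℕ) →+* IsLocalRing.ResidueField 𝒪}
  {T : Type} [CommRing T] [IsLocalRing T] [IsNoetherianRing T]
  [IsAdicComplete (IsLocalRing.maximalIdeal T) T] [Algebra 𝒪 T] [IsLocalHom (algebraMap 𝒪 T)]
  [Module.Finite 𝒪 T] [Module.Free 𝒪 T]
open CuspForm CuspForm.HeckeGaloisRepDatum

namespace Fermat.Agent.S32

theorem result
    [Finite (IsLocalRing.ResidueField 𝒪)] [CharZero 𝒪]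
    (hp : p.Prime) (hp2 : p ≠ 2) (hp𝒪 : (p : 𝒪) ∈ IsLocalRing.maximalIdeal 𝒪) (hpN : ¬ p ∣ N)
    (hpS : p ∈ S) (hNS : ∀ q : ℕ, q.Prime → q ∣ N → q ∈ S)
    (H : CuspForm.HeckeGaloisRepDatum N (↑S : Set ℕ) 𝒪 θ T) :
    H.ρ.IsFlatAt p := by
  have : Fact p.Prime := ⟨hp⟩
  exact Fermat.Agent.Padic.S32.S32_of
    (Fermat.Agent.ESJ.Rep.tateCmpATorsExists_of
      (fun p N _ _ => Fermat.Agent.ESJ.kummerCmp N p (Fact.out : p.Prime).pos)
      (fun p N _ _ => Fermat.Agent.ESJ.RedK.torsionESRelation N p))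
    (Fermat.Agent.Padic.S19_of Fermat.Agent.Padic.dl Fermat.Agent.Padic.loc Fermat.Agent.Padic.gr
      Fermat.Agent.Padic.l23 N p hpN)
    hp hp2 hp𝒪 hpS hNS H

end Fermat.Agent.S32
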