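-- S35 (CuspForm.IsNewform.exists_galoisRepAdic_charpoly_frobenius_eq_of_dvd_of_not_sq_dvd): the
-- lam-adic Galois representation of a weight-2 newform of level M, with the Frobenius
-- characteristic polynomial at every prime q exactly dividing M (q ≠ lam):
-- X^2 ∓ (q + 1) X + q.
-- Proof (BAD layer F): `BAD/S35/Final.s35_of_nodalFrob` — the ESJ trunk ((K) Kummer comparison,
-- (E) Eichler–Shimura on torsion), the bad-prime Tate data (`BAD/S35Of`), level transfer to the
-- good pairs (`BAD/LevelTransfer`), the formal half (`BAD/FormalHalf`, `BAD/S35/FormalInst`) and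
-- the toric half (`BAD/S35/ToricFrob`) of the new-part Frobenius relation
-- `(φ² − 1)(φ² − q²) = 0` — applied to the nodal special fibre of `X₀(M' q)` at `q` with
-- `𝔽_{q²}`-rational nodes (`BAD/S35/NodalFrobInst.nodalFrobAt_good`) over the chart base of
-- `BAD/ChartBaseGood.exists_isChartBase_of_good`.
import Fermat.Statements.S35
import Fermat.Agent.BAD.S35.Final
import Fermat.Agent.BAD.S35.NodalFrobInst
import Fermat.Agent.BAD.ChartBaseGood

set_option autoImplicit false
set_option autoImplicit false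
open Polynomial
open CuspForm CuspForm.IsNewform

namespace Fermat.Agent.S35

theorem result
    {M : ℕ} [NeZero M] {g : CuspForm (CongruenceSubgroup.Gamma0 M) 2} (hg : g.IsNewform)
    (lam : ℕ) [Fact lam.Prime]
    (S : Finset ℕ)
    (O' : Type) [CommRing O'] [IsDomain O'] [IsDiscreteValuationRing O']
    [IsAdicComplete (IsLocalRing.maximalIdeal O') O'] [Finite (IsLocalRing.ResidueField O')]
    [CharZero O'] (hlamO' : (lam : O') ∈ IsLocalRing.maximalIdeal O')
    (chig : CuspForm.heckeAlgebra M 2 (↑S : Set ℕ) →+* ℂ)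
    (hchig : ∀ (ℓ : ℕ) (hℓ : ℓ.Prime) (hℓM : ¬ ℓ ∣ M) (hℓS : ℓ ∉ (↑S : Set ℕ)),
      chig (CuspForm.heckeAlgebra.T hℓ hℓM hℓS) = ModularFormClass.qCoeff g ℓ)
    (iota : chig.range →+* O')
    (hlamS : lam ∈ S) (hMS : ∀ q : ℕ, q.Prime → q ∣ M → q ∈ S)
    :
    ∃ (O'' : Type) (_ : CommRing O'') (_ : IsDomain O'') (_ : IsDiscreteValuationRing O'')
      (_ : IsAdicComplete (IsLocalRing.maximalIdeal O'') O'') (_ : Finite (IsLocalRing.ResidueField O''))
      (_ : CharZero O'') (_ : Algebra O' O'') (_ : Module.Finite O' O'') (_ : IsLocalHom (algebraMap O' O'')),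
      Function.Injective (algebraMap O' O'') ∧
      ∃ ρ : GaloisRepAdic O'',
        (∀ (ℓ : ℕ) (hℓ : ℓ.Prime) (hℓM : ¬ ℓ ∣ M) (hℓS : ℓ ∉ (↑S : Set ℕ)),
          ∀ A : ValuationSubring (AlgebraicClosure ℚ), A.LiesOverPrime ℓ →
            ∀ σ : AlgebraicClosure ℚ ≃ₐ[ℚ] AlgebraicClosure ℚ, A.IsFrobeniusAt σ ℓ →
              LinearMap.charpoly (ρ.ρ σ) =
                X ^ 2 - C (algebraMap O' O'' ((iota.comp chig.rangeRestrict) (CuspForm.heckeAlgebra.T hℓ hℓM hℓS))) * X
                  + C ((ℓ : O''))) ∧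
        (∀ q : ℕ, q.Prime → q ≠ lam → q ∣ M → ¬ q ^ 2 ∣ M →
          ∀ A : ValuationSubring (AlgebraicClosure ℚ), A.LiesOverPrime q →
            ∀ σ : AlgebraicClosure ℚ ≃ₐ[ℚ] AlgebraicClosure ℚ, A.IsFrobeniusAt σ q →
              LinearMap.charpoly (ρ.ρ σ) = X ^ 2 - C ((q : O'') + 1) * X + C ((q : O'')) ∨
              LinearMap.charpoly (ρ.ρ σ) = X ^ 2 + C ((q : O'') + 1) * X + C ((q : O''))) := by
  refine Fermat.Agent.BAD.S35.Final.s35_of_nodalFrob
    (fun A M q _ _ h _ hgood W hW => ?_) hg lam S O' hlamO' chig hchig iota hlamS hMS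
  have : IsAlgClosed (IsLocalRing.ResidueField A) :=
    Fermat.Agent.Lib.FF.CharP.isAlgClosed_residueField A
  obtain ⟨X, hX⟩ := Fermat.Agent.BAD.exists_isChartBase_of_good h
    IsLocalRing.residue_surjective hgood
  exact Fermat.Agent.BAD.S35.NodalFrobInst.nodalFrobAt_good h hW
    IsLocalRing.residue_surjective hgood X hX

end Fermat.Agent.S35
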