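-- S37 (ModularCurve.specializationExists_JZero): for every prime ℓ ∤ N p the p-power torsion of
-- J₀(N) = Pic⁰ of ℚ̄(X₀(N)) is unramified at ℓ and satisfies the Eichler–Shimura relation
-- Frob_ℓ² - T_ℓ Frob_ℓ + ℓ = 0 (`SpecializationExists`).
-- Proof: Fermat.Agent.ESJ.specializationExists_of_good (ESJ/S37OfGood.lean: ES-CONG assembly +
-- level pull-back J₀(N) → J₀(N·aux) for ℓ = 2, 3) applied to Fermat.Agent.ESJ.good_pairs
-- (ESJ/Red/R2Good.lean: R1 ∧ R2 of the reduction layer RED at every good pair).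
import Fermat.Statements.S37
import Fermat.Agent.ESJ.S37OfGood
import Fermat.Agent.ESJ.Red.R2Good

set_option autoImplicit false
open ModularCurve

namespace Fermat.Agent.S37

theorem result (N p : ℕ) [NeZero N] (hcomm : ModularCurve.HeckeOperatorsCommuteBar N) : letI := ModularCurve.heckeModuleBar N; ∀ (_ : SMulCommClass (AlgebraicClosure ℚ ≃ₐ[ℚ] AlgebraicClosure ℚ) ModularCurve.HeckeAlg (ModularCurve.JZero N)), ModularCurve.SpecializationExists (K := ℚ) (L := AlgebraicClosure ℚ) N p (ModularCurve.JZero N) :=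
  Fermat.Agent.ESJ.specializationExists_of_good Fermat.Agent.ESJ.good_pairs N p hcomm

end Fermat.Agent.S37
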