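-- Statement S42 (row 40): residual attachment for eigenforms at the Frey prime, all levels.
import Fermat.Statements.S42
import Fermat.Agent.ESJ.Rep.S29OfES
import Fermat.Agent.ESJ.RedK.GoodRed

set_option autoImplicit false
open FreyPackage

namespace Fermat.Agent.S42

theorem result (P : FreyPackage) :
    ∀ M : ℕ, 0 < M → P.EigenformResidualAttachmentAt M :=
  Fermat.Agent.ESJ.S42_of_torsionES
    (fun N p _ _ => Fermat.Agent.ESJ.RedK.torsionESRelation N p) P

end Fermat.Agent.S42
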