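-- Statement S44 (row 38): level lowering at `p` for a Frey package of conductor level `N`.
-- The statement below is byte-identical to the frozen statement FreyPackage.FermatFrozen.S44
-- (Fermat/Statements/S44.lean; the theorem FreyPackage.level_lowering_at_p_of_conductorLevel).
--
-- Proof = the TR chain, all closed terms of Fermat.Agent.TR:
--   `TR.PL.MidInst88.plInf       : TR.PL.Seam.PLInf`        (the node side, (PL) at infinity)
--   `TR.Top.KeyClosed.trKey_of_plInf : Seam.PLInf → TR.Top.TRKey`  (the Hecke side, (KEY))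
--   `TR.Top.s44_of_key           : TRKey → (this statement)`  ((REP) + (E-ST) + top seam)
import Fermat.Statements.S44
import Fermat.Agent.TR.Top.S44Of3
import Fermat.Agent.TR.Top.KeyClosed
import Fermat.Agent.TR.PL.MidInst88

set_option autoImplicit false
open WeierstrassCurve WeierstrassCurve.Affine WeierstrassCurve.Affine.Point
open CuspForm ModularFormClass UpperHalfPlane
open FreyPackage

namespace Fermat.Agent.S44

theorem result (P : FreyPackage) {N : ℕ} (hcond : P.IsConductorLevel N) (hpN : P.p ∣ N) (hirr : GaloisRepIsIrreducible (K := AlgebraicClosure ℚ) ℚ P.freyCurve P.p) (hmod : P.ModularRepOfLevel N) : ∃ M : ℕ, M ∣ N ∧ ¬ P.p ∣ M ∧ P.ModularRepOfLevel M :=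
  Fermat.Agent.TR.Top.s44_of_key
    (Fermat.Agent.TR.Top.KeyClosed.trKey_of_plInf Fermat.Agent.TR.PL.MidInst88.plInf)
    P hcond hpN hirr hmod

end Fermat.Agent.S44
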