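-- Statement S49 (row 44): Deligne-Serre lifting lemma for a lattice-realised formal eigensystem.
-- Proof: helper49. Helpers live in Fermat/Agent/S49/*.lean.
import Fermat.Statements.S49
import Fermat.Agent.S49.Eigen
import Fermat.Agent.S49.Formal
import Fermat.Agent.S49.Forms
import Fermat.Agent.S49.Integral
import Fermat.Agent.S49.Congruence
import Fermat.Agent.S49.Eigenform

set_option autoImplicit false
open CuspForm EisensteinWeightOne CongruenceSubgroup ModularFormClass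
open FLT FLT.AbstractIntegralStructure

namespace Fermat.Agent.S49

theorem result
    {N : ℕ} [NeZero N] (h : CuspForm.HasIntegralBasis N) {a : ℕ → ℤ}
    (heig : FormalHecke.IsEigensystem
      (fun ℓ => if ℓ ∣ N then 0 else ((chiNegThree ℓ : ℤ) : ℤ)) a)
    (hreal : CuspForm.IsLatticeRealized N a) :
    ∃ (f : CuspForm (Gamma0 N) 2) (_ : f.IsNormalizedEigenform)
      (𝔪' : Ideal (integralClosure ℤ ℂ)), 𝔪'.IsMaximal ∧
      ((3 : ℕ) : integralClosure ℤ ℂ) ∈ 𝔪' ∧
      ∀ (ℓ : ℕ) (_ : ℓ.Prime) (_ : ¬ ℓ ∣ N),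
        ∃ c : integralClosure ℤ ℂ, (c : ℂ) = ModularFormClass.qCoeff f ℓ ∧
          c - (a ℓ : integralClosure ℤ ℂ) ∈ 𝔪' := by
  obtain ⟨F, -, af, haf, hcong'⟩ := hreal
  have hcong : ∀ n, (3 : ℤ) ∣ af n - a n := fun n => by
    have := dvd_add (hcong' n) (bridgeProduct_coeff_sub a n)
    rwa [sub_add_sub_cancel] at this
  have hfin : Module.Finite ℂ (CuspForm (Gamma0 N) 2) := finite_of_hasIntegralBasis h
  obtain ⟨𝔪, hmax, h3, hT⟩ := exists_maximal_ideal haf hcong heig
  -- a simultaneous eigenvector whose eigencharacter has kernel inside `𝔪`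
  obtain ⟨v, θ, hv0, heigv, hkerθ⟩ := exists_eigenvector_of_prime
    ((CuspForm.heckeAlgebra N 2 ∅).val.toRingHom) 𝔪 (by
      intro x hx
      have : x = 0 := Subtype.ext hx
      rw [this]
      exact 𝔪.zero_mem)
  -- the normalised eigenform
  obtain ⟨g, hg, hgℓ⟩ := exists_normalized_eigenform hv0 heigv
  -- integrality of the eigenvalues
  have hint : ∀ t : CuspForm.heckeAlgebra N 2 ∅, θ t ∈ integralClosure ℤ ℂ := by
    intro t
    have h1 : IsIntegral ℤ (t : Module.End ℂ (CuspForm (Gamma0 N) 2)) :=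
      isIntegral_of_lattice (CuspForm.intLattice N 2) (CuspForm.intLattice_fg N 2)
        (span_intLattice_eq_top h) t
        (fun x hx => CuspForm.mem_intLattice_of_mem_heckeAlgebra (by norm_num) t.2 hx)
    have h2 : IsIntegral ℤ t :=
      (isIntegral_algHom_iff (CuspForm.heckeAlgebra N 2 ∅).val Subtype.val_injective).mp h1
    exact h2.map θ.toIntAlgHom
  let θ' : CuspForm.heckeAlgebra N 2 ∅ →+* integralClosure ℤ ℂ :=
    θ.codRestrict (integralClosure ℤ ℂ) hint
  let instAlg : Algebra (CuspForm.heckeAlgebra N 2 ∅) (integralClosure ℤ ℂ) := θ'.toAlgebra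
  have hIntegral : Algebra.IsIntegral (CuspForm.heckeAlgebra N 2 ∅) (integralClosure ℤ ℂ) :=
    ⟨fun x => (Algebra.IsIntegral.isIntegral (R := ℤ) x).tower_top⟩
  obtain ⟨𝔪', hmax', hcomap⟩ := Ideal.exists_ideal_over_maximal_of_isIntegral
    (S := integralClosure ℤ ℂ) 𝔪 (by
      intro x hx
      apply hkerθ
      rw [RingHom.mem_ker] at hx ⊢
      exact congrArg Subtype.val hx)
  refine ⟨g, hg, 𝔪', hmax', ?_, ?_⟩
  · have h3' : (3 : CuspForm.heckeAlgebra N 2 ∅) ∈
        Ideal.comap (algebraMap (CuspForm.heckeAlgebra N 2 ∅) (integralClosure ℤ ℂ)) 𝔪' := by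
      rw [hcomap]; exact h3
    rw [Ideal.mem_comap] at h3'
    have e : algebraMap (CuspForm.heckeAlgebra N 2 ∅) (integralClosure ℤ ℂ) 3 =
        ((3 : ℕ) : integralClosure ℤ ℂ) := by
      rw [map_ofNat]; rfl
    rw [e] at h3'
    exact h3'
  · intro ℓ hℓ hℓN
    refine ⟨θ' (CuspForm.heckeAlgebra.T hℓ hℓN (Set.notMem_empty ℓ)), ?_, ?_⟩
    · exact (hgℓ ℓ hℓ hℓN).symm
    · have hTℓ := hT ℓ hℓ hℓN
      rw [← hcomap, Ideal.mem_comap, map_sub, map_intCast] at hTℓ
      exact hTℓ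

end Fermat.Agent.S49
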