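import Fermat.Statements.S51
import Fermat.Agent.S51.ThreeTorsion
import Fermat.Agent.S51.FiveTorsion
import Fermat.Agent.S51.TateParam
import Fermat.Agent.S51.Concordant
import Fermat.Agent.S51.RationalPointsAux
import Fermat.Agent.S51.Semistable

set_option autoImplicit false
open WeierstrassCurve WeierstrassCurve.Affine WeierstrassCurve.Affine.Point
open CuspForm ModularFormClass UpperHalfPlane
open WeierstrassCurve

namespace Fermat.Agent.S51

/-
Proof outline (no semistable elliptic curve over `ℚ` has a rational `15`-isogeny).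
If both representations are reducible, the `3`-torsion gives a rational root `x₃` of `Ψ₃`
(`ThreeTorsion`) and the `5`-torsion gives a Galois-stable pair `x₁ = x(P)`, `x₂ = x(2P)`
(`FiveTorsion`).  The Tate-normal-form parameters (`TateAlg`, `TateParam`) turn these into a
rational point `(γ, Y)` of `Y² = γ (γ - 4) (4 γ + 9)` (a model of `X₀(15)`) together with the
value `t` of the Hauptmodul of `X₀(5)`, `j = (t² + 10 t + 5)³ / t`.  The curve has rank `0`
(`Concordant`, `RationalPointsAux`: a `2`-descent), which leaves `t ∈ {-10, -40, -25/2, -25/8}`,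
and these contradict semistability at `5` (`Semistable`).
-/
theorem result (W : WeierstrassCurve ℤ) (hΔ : W.Δ ≠ 0) (hW : W.IsSemistableModel) : W.ModRepIsIrreducible 3 ∨ W.ModRepIsIrreducible 5 := by
  by_contra hcon
  rw [not_or] at hcon
  obtain ⟨h3, h5⟩ := hcon
  have hΔE : (W.map (Int.castRingHom ℚ)).Δ ≠ 0 := by
    rw [WeierstrassCurve.map_Δ]
    simpa using hΔ
  obtain ⟨x₃, hx₃⟩ := exists_rat_root_Ψ₃ (W.map (Int.castRingHom ℚ)) hΔE h3
  obtain ⟨x₁, x₂, hne, hσ, hΦ₁, hΦ₂, h12, h21⟩ :=
    exists_quintic_data (W.map (Int.castRingHom ℚ)) hΔE h5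
  obtain ⟨γ, Y, t, hY, hγ, ht, hrel, hj⟩ :=
    tate_param (W.map (Int.castRingHom ℚ)) hΔE x₃ hx₃ x₁ x₂ hne hσ hΦ₁ hΦ₂ h12 h21
  have hc₄ : (W.map (Int.castRingHom ℚ)).c₄ = (W.c₄ : ℚ) := by
    rw [WeierstrassCurve.map_c₄]; rfl
  have hΔ' : (W.map (Int.castRingHom ℚ)).Δ = (W.Δ : ℚ) := by
    rw [WeierstrassCurve.map_Δ]; rfl
  rw [hc₄, hΔ'] at hj
  have ht4 : t = -10 ∨ t = -40 ∨ t = -25 / 2 ∨ t = -25 / 8 := by
    rcases RationalPoints.rational_points_of no_concordant γ Y hY with
      h | h | h | ⟨h, hY' | hY'⟩ | ⟨h, hY' | hY'⟩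
    · exact absurd h hγ
    · -- γ = 4, Y = 0
      subst h
      have hY0 : Y = 0 := by
        have : Y ^ 2 = 0 := by rw [hY]; norm_num
        exact pow_eq_zero_iff (two_ne_zero) |>.mp this
      subst hY0
      right; right; left
      linarith
    · -- γ = -9/4, Y = 0
      subst h
      have hY0 : Y = 0 := by
        have : Y ^ 2 = 0 := by rw [hY]; norm_num
        exact pow_eq_zero_iff (two_ne_zero) |>.mp this
      subst hY0
      right; right; right
      linarith
    · -- γ = 9, Y = 45: the cusp t = 0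
      subst h; subst hY'
      exact absurd (by linarith : t = 0) ht
    · -- γ = 9, Y = -45
      subst h; subst hY'
      right; left
      linarith
    · -- γ = -1, Y = 5: the cusp t = 0
      subst h; subst hY'
      exact absurd (by linarith : t = 0) ht
    · -- γ = -1, Y = -5
      subst h; subst hY'
      left
      linarith
  exact semistable_contra W hW t ht4 hj

end Fermat.Agent.S51
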