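import Fermat.Statements.S52
import Fermat.Agent.S52K.Interfaces
import Fermat.Agent.S52K.RelGen6
import Fermat.Agent.S52K.PKSpec14
import Fermat.Agent.S52K.Indep14
import Fermat.Agent.S52K.RelSurj54
import Fermat.Agent.S52K.Rigid66
import Fermat.Agent.S52K.GalCompat90
import Fermat.Agent.S52K.ShortCong90
import Fermat.Agent.S52K.BaseExists88
import Fermat.Agent.S52K.KleinCong5_76
import Fermat.Agent.S52K.FamInt72
import Fermat.Agent.S52K.FamSS70
import Fermat.Agent.S52K.Bezout78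
import Fermat.Agent.S52K.ConeNonempty10
import Fermat.Agent.S52K.ModelExists26Inst
import Fermat.Agent.S52K.AuxPrime44
import Fermat.Agent.S52K.TwistAp59
import Fermat.Agent.S52K.Cong5Ap58
import Fermat.Agent.S52K.FamSeam46
import Fermat.Agent.S52K.TopSeam46
import Fermat.Agent.S52K.FamTwist68
import Fermat.Agent.S52K.Irr3Brick62

set_option autoImplicit false
open WeierstrassCurve WeierstrassCurve.Affine WeierstrassCurve.Affine.Point
open CuspForm ModularFormClass UpperHalfPlane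
open WeierstrassCurve

namespace Fermat.Agent.S52

theorem result (W : WeierstrassCurve ℤ) (hΔ : W.Δ ≠ 0) (hW : W.IsSemistableModel) (h5 : W.ModRepIsIrreducible 5) : ∃ W' : WeierstrassCurve ℤ, W'.Δ ≠ 0 ∧ W'.IsSemistableModel ∧ W'.ModRepIsIrreducible 3 ∧ ∀ ℓ : ℕ, ℓ.Prime → W.IsGoodPrimeFor ℓ → W'.IsGoodPrimeFor ℓ → ℓ ≠ 5 → (5 : ℤ) ∣ (W'.apOfModel ℓ - W.apOfModel ℓ) := by
  have hPK : Fermat.Agent.S52K.Klein.PKSpec := Fermat.Agent.S52K.PKSpec14.pkSpec
  have hGen : Fermat.Agent.S52K.Klein.RelGen := Fermat.Agent.S52K.RelGen6.relGen hPK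
  have hInd : Fermat.Agent.S52K.Klein.Indep := Fermat.Agent.S52K.Indep14.indep hPK hGen
  have hSurj : Fermat.Agent.S52K.Klein.RelSurj := Fermat.Agent.S52K.RelSurj54.relSurj hPK hGen
  have hRig : Fermat.Agent.S52K.Klein.Rigid := Fermat.Agent.S52K.Rigid66.rigid hPK hGen
  have hGal : Fermat.Agent.S52K.Klein.GalCompat := Fermat.Agent.S52K.GalCompat90.galCompat hPK hGen
  have hCone : Fermat.Agent.S52K.Klein.ConeNonempty := Fermat.Agent.S52K.ConeNonempty10.coneNonempty
  have hBez : Fermat.Agent.S52K.Klein.Bezout := Fermat.Agent.S52K.Bezout78.bezout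
  have hBase : Fermat.Agent.S52K.BaseExists :=
    Fermat.Agent.S52K.BaseExists88.baseExists hCone hPK hSurj hInd hRig hGal
  have hK5 : Fermat.Agent.S52K.KleinCong5 :=
    Fermat.Agent.S52K.KleinCong5_76.kleinCong5 hPK hSurj hInd hGal
  have hInt : Fermat.Agent.S52K.FamInt := Fermat.Agent.S52K.FamInt72.famInt hSurj
  have hSS : Fermat.Agent.S52K.FamSS := Fermat.Agent.S52K.FamSS70.famSS hBez
  have hTw : Fermat.Agent.S52K.FamTwist :=
    Fermat.Agent.S52K.FamTwist68.famTwist hPK hSurj hInd hRig hGal hBez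
  have hFam : Fermat.Agent.S52K.FamilyExists :=
    Fermat.Agent.S52K.FamSeam46.famSeam hBase hK5 hInt hSS hTw
      Fermat.Agent.S52K.ShortCong90.shortCong Fermat.Agent.S52K.ModelExists26.modelExists
  exact Fermat.Agent.S52K.TopSeam46.topSeam hFam Fermat.Agent.S52K.Cong5Ap58.cong5Ap
    Fermat.Agent.S52K.Irr3Brick62.irr3 Fermat.Agent.S52K.TwistAp59.twistAp
    Fermat.Agent.S52K.AuxPrime44.auxPrime W hΔ hW h5

end Fermat.Agent.S52
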