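-- Statement S55 (row 49): Poitou–Tate duality Ш¹(M^∨(1)) × Ш²(M) → 𝔽_p is perfect (p odd).
-- Assembly of the PT project: engine (Fermat/Agent/PT/Coh), base inputs (B1)–(B6), (B3T)
-- (Fermat/Agent/PT/Base, PT/G, PT/Br) and the formal instantiation (PT/Base/FormalInst).
import Fermat.Statements.S55
import Fermat.Agent.PT.Base.FormalInst
import Fermat.Agent.PT.Base.B1
import Fermat.Agent.PT.Base.B5
import Fermat.Agent.PT.Base.Places
import Fermat.Agent.PT.G.HasseGeHyp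
import Fermat.Agent.PT.G.G3Le
import Fermat.Agent.PT.G.KumB2
import Fermat.Agent.PT.G.B4Asm
import Fermat.Agent.PT.Br.B3Done

set_option autoImplicit false
set_option autoImplicit false
open CategoryTheory Module groupCohomology ExtCitation
open groupCohomology

namespace Fermat.Agent.S55

theorem result
    {p : ℕ} [Fact p.Prime] (hp2 : p ≠ 2) (S : Finset Nat.Primes) (hpS : pPrime p ∈ S)
    (M : Rep (ZMod p) (AlgebraicClosure ℚ ≃ₐ[ℚ] AlgebraicClosure ℚ))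
    [FiniteDimensional (ZMod p) M]
    (hsm : ∀ m : M, ∃ F : IntermediateField ℚ (AlgebraicClosure ℚ), FiniteDimensional ℚ F ∧
      ∀ s ∈ F.fixingSubgroup, M.ρ s m = m)
    (hMur : ∀ q : Nat.Primes, q ∉ S → ∀ A : ValuationSubring (AlgebraicClosure ℚ),
      A.LiesOverPrime (q : ℕ) → ∀ g ∈ A.inertiaSubgroupIn ℚ, M.ρ g = 1) :
    ∃ B : sha₁ S (M.dualTwist (cycloChar p)) →ₗ[ZMod p] sha₂ S M →ₗ[ZMod p] ZMod p,
      (∀ y, (∀ x, B y x = 0) → y = 0) ∧ (∀ x, (∀ y, B y x = 0) → x = 0) :=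
  Fermat.Agent.PT.Base.Mackey.s55_of_baseInputs_only p S hp2 hpS
    { b1 := Fermat.Agent.PT.Base.b1_of hp2 hpS (Fermat.Agent.PT.Base.placesHyp p S)
        (Fermat.Agent.PT.HasseGe.g3GeHyp hpS) (Fermat.Agent.PT.G.g3Le p S hp2 hpS)
      b2 := Fermat.Agent.PT.Kummer.b2 p S
      b3 := Fermat.Agent.PT.Br.Inst.b3_holds p hp2 S
      b3T := Fermat.Agent.PT.Br.Inst.b3T_holds p hp2 S hpS
      b4 := Fermat.Agent.PT.G.b4 p S hp2 hpS
      b5 := Fermat.Agent.PT.Base.b5 p S hp2 hpS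
      b6 := Fermat.Agent.PT.Base.b6_of hp2 hpS (Fermat.Agent.PT.HasseGe.g3GeHyp hpS)
        (Fermat.Agent.PT.G.g3Le p S hp2 hpS) }
    M hsm hMur

end Fermat.Agent.S55
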