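import Fermat.Statements.S57
import Fermat.Agent.S57.Homological
import Fermat.Agent.S57.Semilinear
import Fermat.Agent.S57.Descent
import Fermat.Agent.S57.PowerSeriesRegular

set_option autoImplicit false
open Algebra Algebra.PatchingLevel

namespace Fermat.Agent.S57

open IsLocalRing RingTheory.Sequence in
/-- The patched module is free over the power series ring. -/
theorem free_patched_module
    {𝒪 : Type} [CommRing 𝒪] [IsDomain 𝒪] [IsDiscreteValuationRing 𝒪]
    {r : ℕ} {R : Type} [CommRing R] [Algebra 𝒪 R]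
    {M : Type} [AddCommGroup M] [Module R M] [Nontrivial M]
    (L : Algebra.PatchingLevel 𝒪 r R M ⊥) :
    Module.Free (MvPowerSeries (Fin r) 𝒪) L.N := by
  obtain ⟨ϖ, hϖ⟩ := IsDiscreteValuationRing.exists_irreducible 𝒪
  have hw := isWeaklyRegular_rs0 r ϖ hϖ
  have hmax := ofList_rs0 r ϖ hϖ
  have hmem : ∀ a ∈ List.ofFn (fun i : Fin r => (MvPowerSeries.X i : MvPowerSeries (Fin r) 𝒪)) ++
      [MvPowerSeries.C ϖ], a ∈ maximalIdeal (MvPowerSeries (Fin r) 𝒪) := by
    intro a ha
    rw [← hmax]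
    exact Ideal.subset_span ha
  have hreg : IsRegular (MvPowerSeries (Fin r) 𝒪)
      (List.ofFn (fun i : Fin r => (MvPowerSeries.X i : MvPowerSeries (Fin r) 𝒪)) ++
        [MvPowerSeries.C ϖ]) :=
    IsRegular.of_isWeaklyRegular_of_mem_maximalIdeal _ hmem hw
  have hRnt : Nontrivial R := Module.nontrivial R M
  have hNnt : Nontrivial L.N := by
    obtain ⟨m, hm⟩ := exists_ne (0 : M)
    obtain ⟨x, rfl⟩ := L.π_surjective m
    exact ⟨⟨x, 0, fun h => hm (by rw [h, map_zero])⟩⟩
  -- `φ` maps the generators into the maximal ideal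
  have hφ : ∀ a ∈ List.ofFn (fun i : Fin r => (MvPowerSeries.X i : MvPowerSeries (Fin r) 𝒪)) ++
      [MvPowerSeries.C ϖ], (L.φ : MvPowerSeries (Fin r) 𝒪 →+* MvPowerSeries (Fin r) 𝒪) a ∈
        maximalIdeal (MvPowerSeries (Fin r) 𝒪) := by
    intro a ha
    rw [List.mem_append, List.mem_ofFn, List.mem_singleton] at ha
    rcases ha with ⟨i, rfl⟩ | rfl
    · have hker : RingHom.ker (L.ψ : MvPowerSeries (Fin r) 𝒪 →+* R) ≠ ⊤ :=
        RingHom.ker_ne_top _
      exact IsLocalRing.le_maximalIdeal hker (L.ψ_φ_X i)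
    · have h1 : (MvPowerSeries.C ϖ : MvPowerSeries (Fin r) 𝒪) =
          algebraMap 𝒪 (MvPowerSeries (Fin r) 𝒪) ϖ := by
        rw [MvPowerSeries.algebraMap_apply, Algebra.algebraMap_self, RingHom.id_apply]
      rw [h1, RingHom.coe_coe, AlgHom.commutes, ← h1]
      exact hmem _ (by simp)
  -- the semilinear additive equivalence
  let e0 : (Fin L.d → MvPowerSeries (Fin r) 𝒪) →+ L.N :=
    { toFun := fun c => ∑ i, L.φ (c i) • L.b i
      map_zero' := by simp
      map_add' := by
        intro c c'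
        simp [add_smul, Finset.sum_add_distrib] }
  have he0 : ∀ c, e0 c = ∑ i, L.φ (c i) • L.b i := fun c => rfl
  have hinj : Function.Injective e0 := by
    rw [injective_iff_map_eq_zero]
    intro c hc
    rw [he0, L.b_rel] at hc
    funext i
    exact hc i
  have hsurj : Function.Surjective e0 := by
    intro x
    obtain ⟨c, hc⟩ := L.b_span x
    exact ⟨c, hc.symm⟩
  let e : (Fin L.d → MvPowerSeries (Fin r) 𝒪) ≃+ L.N := AddEquiv.ofBijective e0 ⟨hinj, hsurj⟩
  have he : ∀ (a : MvPowerSeries (Fin r) 𝒪) (c : Fin L.d → MvPowerSeries (Fin r) 𝒪),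
      e (a • c) = (L.φ : MvPowerSeries (Fin r) 𝒪 →+* MvPowerSeries (Fin r) 𝒪) a • e c := by
    intro a c
    show e0 (a • c) = _ • e0 c
    rw [he0, he0, Finset.smul_sum]
    refine Finset.sum_congr rfl ?_
    intro i _
    rw [Pi.smul_apply, smul_eq_mul, map_mul, mul_smul]
    rfl
  exact free_of_semilinear_addEquiv _ hreg hmax
    (L.φ : MvPowerSeries (Fin r) 𝒪 →+* MvPowerSeries (Fin r) 𝒪) hφ L.N L.d e he

theorem result
    {𝒪 : Type} [CommRing 𝒪] [IsDomain 𝒪] [IsDiscreteValuationRing 𝒪]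
    {r : ℕ} {R : Type} [CommRing R] [Algebra 𝒪 R]
    {M : Type} [AddCommGroup M] [Module R M] [Nontrivial M]
    (L : Algebra.PatchingLevel 𝒪 r R M ⊥) :
    Module.Free R M ∧ Module.annihilator R M = ⊥ ∧
      RingHom.ker L.ψ = Ideal.span (Set.range fun i : Fin r => L.φ (MvPowerSeries.X i)) := by
  exact descent_of_free L (free_patched_module L)

end Fermat.Agent.S57
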